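/-
FF seat D1 (helper19): extension of orthonormal families (abstract `Deuring.ValSetup`).

`IsOrtho S P b` : the family `b` consists of elements of `Ov` with property `P` whose reductions are
`k`-linearly independent.  An orthonormal family `b'` contained in the span of an orthonormal family
`c : Fin n → F` extends to an orthonormal family `b : Fin n → F` with the same span as `c`, the new
members being taken among the `c j` (`IsOrtho.exists_extension`).
-/
import Mathlib
import Fermat.Agent.Lib.Deuring.RedSpace

set_option autoImplicit false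
set_option linter.style.haveILetI false

noncomputable section

namespace Fermat.Agent.FF.RedRat

open AlgebraicCurve Fermat.Agent.RR Fermat.Agent.Deuring

variable {K F k Fk : Type*} [Field K] [Field F] [Algebra K F]
  [Field k] [Field Fk] [Algebra k Fk]

/-- An orthonormal family with property `P`. -/
structure IsOrtho (S : ValSetup K F k Fk) (P : F → Prop) {n : ℕ} (b : Fin n → F) : Prop where
  int : ∀ i, b i ∈ S.Ov
  li : LinearIndependent k (fun i => S.red (b i))
  prop : ∀ i, P (b i)

namespace IsOrtho

variable {S : ValSetup K F k Fk} {P : F → Prop}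

theorem linearIndependent {n : ℕ} {b : Fin n → F} (h : IsOrtho S P b) :
    LinearIndependent K b :=
  linearIndependent_of_red S b h.int h.li

theorem finrank_span {n : ℕ} {b : Fin n → F} (h : IsOrtho S P b) :
    Module.finrank K (Submodule.span K (Set.range b)) = n := by
  rw [finrank_span_eq_card h.linearIndependent, Fintype.card_fin]

/-- the reduction of an integral element of the span lies in the span of the reductions -/
theorem red_mem_span {n : ℕ} {c : Fin n → F} (hc : IsOrtho S P c) {x : F}
    (hx : x ∈ Submodule.span K (Set.range c)) (hxO : x ∈ S.Ov) :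
    S.red x ∈ Submodule.span k (Set.range fun i => S.red (c i)) := by
  rw [← redSpace_span S c hc.int hc.li]
  exact red_mem_redSpace S _ hx hxO

theorem snoc {m : ℕ} {b' : Fin m → F} (hb' : IsOrtho S P b') {x : F} (hxO : x ∈ S.Ov)
    (hxP : P x) (hx : S.red x ∉ Submodule.span k (Set.range fun i => S.red (b' i))) :
    IsOrtho S P (Fin.snoc b' x : Fin (m + 1) → F) where
  int := by
    intro i
    refine Fin.lastCases ?_ (fun i => ?_) i
    · rw [Fin.snoc_last]
      exact hxO
    · rw [Fin.snoc_castSucc]
      exact hb'.int i
  li := by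
    have h1 : (fun i => S.red ((Fin.snoc b' x : Fin (m + 1) → F) i)) =
        (Fin.snoc (fun i => S.red (b' i)) (S.red x) : Fin (m + 1) → Fk) := by
      funext i
      refine Fin.lastCases ?_ (fun i => ?_) i
      · rw [Fin.snoc_last, Fin.snoc_last]
      · rw [Fin.snoc_castSucc, Fin.snoc_castSucc]
    rw [h1, linearIndependent_finSnoc]
    exact ⟨hb'.li, hx⟩
  prop := by
    intro i
    refine Fin.lastCases ?_ (fun i => ?_) i
    · rw [Fin.snoc_last]
      exact hxP
    · rw [Fin.snoc_castSucc]
      exact hb'.prop i

/-- extension by one member of `c` -/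
theorem exists_snoc {m n : ℕ} {b' : Fin m → F} {c : Fin n → F} (hb' : IsOrtho S P b')
    (hc : IsOrtho S P c) (hmn : m < n) :
    ∃ j, IsOrtho S P (Fin.snoc b' (c j) : Fin (m + 1) → F) := by
  by_contra hcon
  push Not at hcon
  have hall : ∀ j, S.red (c j) ∈ Submodule.span k (Set.range fun i => S.red (b' i)) := by
    intro j
    by_contra hj
    exact hcon j (hb'.snoc (hc.int j) (hc.prop j) hj)
  have hle : Submodule.span k (Set.range fun i => S.red (c i)) ≤
      Submodule.span k (Set.range fun i => S.red (b' i)) := by
    rw [Submodule.span_le]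
    rintro _ ⟨j, rfl⟩
    exact hall j
  haveI : FiniteDimensional k (Submodule.span k (Set.range fun i => S.red (b' i))) :=
    FiniteDimensional.span_of_finite k (Set.finite_range _)
  have h1 := Submodule.finrank_mono hle
  rw [finrank_span_eq_card hc.li, finrank_span_eq_card hb'.li, Fintype.card_fin,
    Fintype.card_fin] at h1
  omega

theorem exists_extension_aux {n : ℕ} {c : Fin n → F} (hc : IsOrtho S P c) :
    ∀ (d m : ℕ) (b' : Fin m → F), m + d = n → IsOrtho S P b' →
      (∀ i, b' i ∈ Submodule.span K (Set.range c)) →
      ∃ b : Fin n → F, IsOrtho S P b ∧ (∀ i, b i ∈ Submodule.span K (Set.range c)) ∧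
        ∀ (hmn : m ≤ n) (i : Fin m), b (Fin.castLE hmn i) = b' i := by
  intro d
  induction d with
  | zero =>
    intro m b' hm hb' hmem
    have hm' : m = n := by omega
    subst hm'
    exact ⟨b', hb', hmem, fun _ i => rfl⟩
  | succ d ih =>
    intro m b' hm hb' hmem
    obtain ⟨j, hj⟩ := hb'.exists_snoc hc (by omega)
    obtain ⟨b, hb, hbmem, hbb⟩ := ih (m + 1) (Fin.snoc b' (c j)) (by omega) hj (by
      intro i
      refine Fin.lastCases ?_ (fun i => ?_) i
      · rw [Fin.snoc_last]
        exact Submodule.subset_span ⟨j, rfl⟩
      · rw [Fin.snoc_castSucc]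
        exact hmem i)
    refine ⟨b, hb, hbmem, fun hmn i => ?_⟩
    have h1 := hbb (by omega) (Fin.castSucc i)
    rw [Fin.snoc_castSucc] at h1
    rw [← h1]
    rfl

/-- **EXTENSION** of an orthonormal family inside the span of an orthonormal family. -/
theorem exists_extension {m n : ℕ} {b' : Fin m → F} {c : Fin n → F} (hb' : IsOrtho S P b')
    (hc : IsOrtho S P c) (hmem : ∀ i, b' i ∈ Submodule.span K (Set.range c)) :
    ∃ (hmn : m ≤ n) (b : Fin n → F), IsOrtho S P b ∧
      Submodule.span K (Set.range b) = Submodule.span K (Set.range c) ∧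
      ∀ i : Fin m, b (Fin.castLE hmn i) = b' i := by
  have hmn : m ≤ n := by
    have h1 : LinearIndependent K (fun i => (⟨b' i, hmem i⟩ : Submodule.span K (Set.range c))) := by
      apply LinearIndependent.of_comp (Submodule.span K (Set.range c)).subtype
      exact hb'.linearIndependent
    haveI : FiniteDimensional K (Submodule.span K (Set.range c)) :=
      FiniteDimensional.span_of_finite K (Set.finite_range _)
    have h2 := h1.fintype_card_le_finrank
    rwa [Fintype.card_fin, hc.finrank_span] at h2
  obtain ⟨b, hb, hbmem, hbb⟩ := exists_extension_aux hc (n - m) m b' (by omega) hb' hmem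
  refine ⟨hmn, b, hb, ?_, hbb hmn⟩
  haveI : FiniteDimensional K (Submodule.span K (Set.range c)) :=
    FiniteDimensional.span_of_finite K (Set.finite_range _)
  apply Submodule.eq_of_le_of_finrank_eq
  · rw [Submodule.span_le]
    rintro _ ⟨i, rfl⟩
    exact hbmem i
  · rw [hb.finrank_span, hc.finrank_span]

end IsOrtho

end Fermat.Agent.FF.RedRat
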