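/-
FF seat D1 (helper19): coefficientwise functionals on Laurent series.

`K₀ ⊆ L` fields, `φ = coeffMap (algebraMap K₀ L) : K₀((q)) → L((q))`.  For a `K₀`-linear functional
`lam : L → K₀` the coefficientwise map `coefFun lam : L((q)) → K₀((q))` satisfies
`coefFun lam (c • φ x) = lam c • x`; the functionals separate the points of `L`.  Consequences:

* `linearIndependent_coeffMap` : `φ` maps `K₀`-linearly independent families to `L`-linearly
  independent families;
* `coefFun_span_induction` : the tool for descent statements.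
-/
import Mathlib
import Fermat.Prelude.Def_ModularCurve_LaurentCoeff

set_option autoImplicit false

noncomputable section

namespace Fermat.Agent.FF.RedRat

open ModularCurve HahnSeries

variable {K₀ L : Type*} [Field K₀] [Field L] [Algebra K₀ L]

/-- The coefficientwise application of a `K₀`-linear functional of `L`. -/
def coefFun (lam : L →ₗ[K₀] K₀) (P : LaurentSeries L) : LaurentSeries K₀ := P.map lam

@[simp] theorem coefFun_coeff (lam : L →ₗ[K₀] K₀) (P : LaurentSeries L) (n : ℤ) :
    (coefFun lam P).coeff n = lam (P.coeff n) := rfl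

@[simp] theorem coefFun_zero (lam : L →ₗ[K₀] K₀) : coefFun lam 0 = 0 := by
  ext n
  simp

theorem coefFun_add (lam : L →ₗ[K₀] K₀) (P Q : LaurentSeries L) :
    coefFun lam (P + Q) = coefFun lam P + coefFun lam Q := by
  ext n
  simp

theorem coefFun_sum {ι : Type*} (lam : L →ₗ[K₀] K₀) (s : Finset ι) (P : ι → LaurentSeries L) :
    coefFun lam (∑ i ∈ s, P i) = ∑ i ∈ s, coefFun lam (P i) := by
  classical
  induction s using Finset.induction_on with
  | empty => simp
  | insert a s ha ih => rw [Finset.sum_insert ha, Finset.sum_insert ha, coefFun_add, ih]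

/-- the functional `c ↦ lam (a * c)` -/
def mulFun (lam : L →ₗ[K₀] K₀) (a : L) : L →ₗ[K₀] K₀ :=
  lam ∘ₗ (LinearMap.mulLeft K₀ a)

@[simp] theorem mulFun_apply (lam : L →ₗ[K₀] K₀) (a c : L) : mulFun lam a c = lam (a * c) := rfl

theorem coefFun_smul (lam : L →ₗ[K₀] K₀) (a : L) (P : LaurentSeries L) :
    coefFun lam (a • P) = coefFun (mulFun lam a) P := by
  ext n
  simp

/-- `lam_* (c • φ x) = lam c • x` -/
theorem coefFun_smul_coeffMap (lam : L →ₗ[K₀] K₀) (c : L) (x : LaurentSeries K₀) :
    coefFun lam (c • coeffMap (algebraMap K₀ L) x) = lam c • x := by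
  ext n
  simp only [coefFun_coeff, HahnSeries.coeff_smul, coeffMap_coeff, smul_eq_mul]
  rw [mul_comm, ← Algebra.smul_def, map_smul, smul_eq_mul, mul_comm]

theorem coefFun_coeffMap (lam : L →ₗ[K₀] K₀) (x : LaurentSeries K₀) :
    coefFun lam (coeffMap (algebraMap K₀ L) x) = lam 1 • x := by
  have := coefFun_smul_coeffMap lam 1 x
  rwa [one_smul] at this

/-- the functionals separate points -/
theorem exists_coefFun_ne_zero {P : LaurentSeries L} (hP : P ≠ 0) :
    ∃ lam : L →ₗ[K₀] K₀, coefFun lam P ≠ 0 := by
  obtain ⟨n, hn⟩ : ∃ n, P.coeff n ≠ 0 := by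
    by_contra hcon
    push Not at hcon
    exact hP (HahnSeries.ext (funext hcon))
  obtain ⟨lam, hlam⟩ : ∃ lam : Module.Dual K₀ L, lam (P.coeff n) ≠ 0 := by
    by_contra hcon
    push Not at hcon
    exact hn ((Module.forall_dual_apply_eq_zero_iff K₀ (P.coeff n)).mp hcon)
  refine ⟨lam, fun h0 => hlam ?_⟩
  have := congrArg (fun y : LaurentSeries K₀ => y.coeff n) h0
  simpa using this

/-- `φ` preserves linear independence (finite families, sum form). -/
theorem eq_zero_of_sum_smul_coeffMap {ι : Type*} [Fintype ι] {x : ι → LaurentSeries K₀}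
    (hx : LinearIndependent K₀ x) (c : ι → L)
    (hc : ∑ i, c i • coeffMap (algebraMap K₀ L) (x i) = 0) : ∀ i, c i = 0 := by
  intro i
  apply (Module.forall_dual_apply_eq_zero_iff K₀ (c i)).mp
  intro lam
  have h1 : ∑ j, lam (c j) • x j = 0 := by
    have h2 := congrArg (coefFun lam) hc
    rw [coefFun_sum, coefFun_zero] at h2
    rw [← h2]
    exact Finset.sum_congr rfl fun j _ => (coefFun_smul_coeffMap lam (c j) (x j)).symm
  exact (Fintype.linearIndependent_iff.mp hx) (fun j => lam (c j)) h1 i

/-- `φ` preserves linear independence. -/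
theorem linearIndependent_coeffMap {ι : Type*} [Fintype ι] {x : ι → LaurentSeries K₀}
    (hx : LinearIndependent K₀ x) :
    LinearIndependent L (fun i => coeffMap (algebraMap K₀ L) (x i)) := by
  rw [Fintype.linearIndependent_iff]
  exact fun c hc => eq_zero_of_sum_smul_coeffMap hx c hc

end Fermat.Agent.FF.RedRat
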