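/-
FF seat D1 (helper19): the Gauss ring over `ℚ` (valuation ring `A ∩ ℚ`) and over `L ⊇ ℚ`.

* `ratSub A`             : the valuation ring `A ∩ ℚ` of `ℚ`;
* `resMap A`             : the induced map of residue fields;
* `mem_of_coeffEmb_mem`  : DESCENT: a rational series `z` with `coeffEmb L z ∈ L·F₀` lies in `F₀`;
* `isPres_coeffEmb`, `coeffEmb_mem_gaussSub`, `gaussResFun_coeffEmb` : presentations over
  `(ℚ, A ∩ ℚ)` give presentations over `(L, A)`; the residue is the coefficientwise image.
-/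
import Mathlib
import Fermat.Agent.Lib.GaussInt.Lattice
import Fermat.Agent.Lib.FF.RedRat.Coef

set_option autoImplicit false

noncomputable section

namespace Fermat.Agent.FF.RedRat

open ModularCurve HahnSeries Fermat.Agent.GaussInt

variable {L : Type*} [Field L] [Algebra ℚ L] (A : ValuationSubring L)

/-- The valuation ring `A ∩ ℚ` of `ℚ`. -/
def ratSub : ValuationSubring ℚ := A.comap (algebraMap ℚ L)

variable {A} in
theorem mem_ratSub {c : ℚ} : c ∈ ratSub A ↔ algebraMap ℚ L c ∈ A := Iff.rfl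

variable {A} in
theorem ratSub_liesOver {ℓ : ℕ} (hA : A.LiesOverPrime ℓ) : (ratSub A).LiesOverPrime ℓ := by
  unfold ValuationSubring.LiesOverPrime at hA ⊢
  rw [ValuationSubring.mem_nonunits_iff_or] at hA ⊢
  have : CharZero L := algebraRat.charZero L
  rcases hA with h0 | h
  · left
    have h1 : ℓ = 0 := by exact_mod_cast h0
    rw [h1, Nat.cast_zero]
  · right
    intro hmem
    apply h
    have h1 : algebraMap ℚ L ((ℓ : ℚ)⁻¹) ∈ A := hmem
    rwa [map_inv₀, map_natCast] at h1

/-- The inclusion `A ∩ ℚ → A`. -/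
def incA : ratSub A →+* A :=
  ((algebraMap ℚ L).comp (ratSub A).subtype).codRestrict A (fun a => a.2)

@[simp] theorem coe_incA (a : ratSub A) : ((incA A a : A) : L) = algebraMap ℚ L (a : ℚ) := rfl

instance isLocalHom_incA : IsLocalHom (incA A) where
  map_nonunit a ha := by
    have h1 : A.valuation ((incA A a : A) : L) = 1 := (A.valuation_eq_one_iff _).mp ha
    rw [coe_incA] at h1
    have ha0 : (a : ℚ) ≠ 0 := by
      intro h0
      rw [h0, map_zero, map_zero] at h1
      exact zero_ne_one h1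
    have hinv : ((a : ℚ))⁻¹ ∈ ratSub A := by
      rw [mem_ratSub, map_inv₀, ← A.valuation_le_one_iff, map_inv₀, h1, inv_one]
    refine IsUnit.of_mul_eq_one (⟨_, hinv⟩ : ratSub A) ?_
    apply Subtype.ext
    show (a : ℚ) * (a : ℚ)⁻¹ = 1
    exact mul_inv_cancel₀ ha0

/-- The induced map of residue fields `(A ∩ ℚ)/m → A/m`. -/
def resMap : IsLocalRing.ResidueField (ratSub A) →+* IsLocalRing.ResidueField A :=
  IsLocalRing.ResidueField.map (incA A)

theorem resMap_residue (a : ratSub A) :
    resMap A (IsLocalRing.residue (ratSub A) a) = IsLocalRing.residue A (incA A a) :=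
  IsLocalRing.ResidueField.map_residue (incA A) a

theorem emb_coeffMap_incA (Y : LaurentSeries (ratSub A)) :
    emb A (coeffMap (incA A) Y) = coeffEmb L (emb (ratSub A) Y) := by
  ext n
  rfl

theorem red_coeffMap_incA (Y : LaurentSeries (ratSub A)) :
    red A (coeffMap (incA A) Y) = coeffMap (resMap A) (red (ratSub A) Y) := by
  ext n
  simp only [coeffMap_coeff]
  exact (resMap_residue A _).symm

variable (F₀ : IntermediateField ℚ (LaurentSeries ℚ))

theorem coeffEmb_rat (x : LaurentSeries ℚ) : coeffEmb ℚ x = x := by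
  ext n
  rfl

/-- the base change to `ℚ` is the field itself -/
theorem mem_laurentBaseChange_rat {x : LaurentSeries ℚ} :
    x ∈ laurentBaseChange ℚ F₀ ↔ x ∈ F₀ := by
  have h1 : (⇑(coeffEmb ℚ) '' (F₀ : Set (LaurentSeries ℚ))) = (F₀ : Set (LaurentSeries ℚ)) := by
    ext y
    constructor
    · rintro ⟨x, hx, rfl⟩
      rw [coeffEmb_rat]
      exact hx
    · intro hy
      exact ⟨y, hy, coeffEmb_rat y⟩
  unfold laurentBaseChange
  rw [h1, IntermediateField.adjoin_self]

variable {F₀}

theorem coeffEmb_mem_of_mem_rat {x : LaurentSeries ℚ} (hx : x ∈ laurentBaseChange ℚ F₀) :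
    coeffEmb L x ∈ laurentBaseChange L F₀ :=
  coeffEmb_mem_laurentBaseChange L ((mem_laurentBaseChange_rat F₀).mp hx)

theorem coeffEmb_injective : Function.Injective (coeffEmb L) :=
  coeffMap_injective_of_injective _ (algebraMap ℚ L).injective

variable {A}

/-- integrality of rational series at `A ∩ ℚ` and at `A` -/
theorem isIntQ_ratSub_iff {g : LaurentSeries ℚ} : IsIntQ (ratSub A) g ↔ IsIntQ A g :=
  Iff.rfl

theorem isIntGen_ratSub (h : IsIntGen A F₀) : IsIntGen (ratSub A) F₀ := h

theorem gaussHyp_ratSub {ℓ : ℕ} (h : GaussHyp A F₀ ℓ) : GaussHyp (ratSub A) F₀ ℓ :=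
  ⟨h.isPrime, ratSub_liesOver h.liesOver, isIntGen_ratSub h.isIntGen⟩

/-- **DESCENT**: a rational series whose image lies in `L · F₀` lies in `F₀`. -/
theorem mem_of_coeffEmb_mem (hF₀ : IsIntGen A F₀) {z : LaurentSeries ℚ}
    (hz : coeffEmb L z ∈ laurentBaseChange L F₀) : z ∈ F₀ := by
  obtain ⟨P, Q, hP, hQ, hQ0, hPQ⟩ := exists_frac_of_mem hF₀ hz
  have key : ∀ R ∈ intSpan A F₀, ∀ lam : L →ₗ[ℚ] ℚ,
      coefFun lam R ∈ F₀ ∧ coefFun lam (coeffEmb L z * R) = z * coefFun lam R := by
    intro R hR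
    induction hR using Submodule.span_induction with
    | mem x hx =>
      obtain ⟨g, ⟨hg, -⟩, rfl⟩ := hx
      intro lam
      constructor
      · rw [show coeffEmb L g = coeffMap (algebraMap ℚ L) g from rfl, coefFun_coeffMap,
          ← algebraMap_mul_eq_smul]
        exact mul_mem (F₀.algebraMap_mem _) hg
      · rw [← map_mul, show coeffEmb L (z * g) = coeffMap (algebraMap ℚ L) (z * g) from rfl,
          show coeffEmb L g = coeffMap (algebraMap ℚ L) g from rfl, coefFun_coeffMap,
          coefFun_coeffMap, ← algebraMap_mul_eq_smul, ← algebraMap_mul_eq_smul]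
        ring
    | zero =>
      intro lam
      rw [mul_zero, coefFun_zero, mul_zero]
      exact ⟨F₀.zero_mem, rfl⟩
    | add x y _ _ hx hy =>
      intro lam
      rw [mul_add, coefFun_add, coefFun_add, (hx lam).2, (hy lam).2, mul_add]
      exact ⟨add_mem (hx lam).1 (hy lam).1, rfl⟩
    | smul a x _ hx =>
      intro lam
      have hcomm : coeffEmb L z * (a • x) = a • (coeffEmb L z * x) := by
        rw [← algebraMap_mul_eq_smul, ← algebraMap_mul_eq_smul]
        ring
      rw [hcomm, coefFun_smul, coefFun_smul]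
      exact hx (mulFun lam a)
  obtain ⟨lam, hlam⟩ := exists_coefFun_ne_zero (K₀ := ℚ) hQ0
  have h1 := key Q hQ lam
  have h2 := (key P hP lam).1
  rw [hPQ] at h1
  have h3 : z = coefFun lam P / coefFun lam Q := by
    rw [h1.2, mul_div_assoc, div_self hlam, mul_one]
  rw [h3]
  exact div_mem h2 h1.1

/-- A series over `L` with rational coefficients is the image of a rational series. -/
theorem exists_coeffEmb_eq {f : LaurentSeries L}
    (hf : ∀ n, ∃ q : ℚ, algebraMap ℚ L q = f.coeff n) :
    ∃ z : LaurentSeries ℚ, coeffEmb L z = f := by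
  obtain ⟨lam, hlam⟩ := Module.Projective.exists_dual_eq_one ℚ (one_ne_zero : (1 : L) ≠ 0)
  refine ⟨coefFun lam f, ?_⟩
  ext n
  obtain ⟨q, hq⟩ := hf n
  rw [coeffEmb_coeff, coefFun_coeff, ← hq]
  congr 1
  rw [Algebra.algebraMap_eq_smul_one, map_smul, hlam, smul_eq_mul, mul_one]

/-- Presentations over `(ℚ, A ∩ ℚ)` give presentations over `(L, A)`. -/
theorem isPres_coeffEmb {f : LaurentSeries ℚ} {Y₁ Y₂ : LaurentSeries (ratSub A)}
    (h : IsPres (ratSub A) (laurentBaseChange ℚ F₀) f Y₁ Y₂) :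
    IsPres A (laurentBaseChange L F₀) (coeffEmb L f) (coeffMap (incA A) Y₁)
      (coeffMap (incA A) Y₂) where
  mem₁ := by
    rw [emb_coeffMap_incA]
    exact coeffEmb_mem_of_mem_rat h.mem₁
  mem₂ := by
    rw [emb_coeffMap_incA]
    exact coeffEmb_mem_of_mem_rat h.mem₂
  prim := by
    rw [red_coeffMap_incA]
    intro h0
    apply h.prim
    exact coeffMap_injective_of_injective _ (resMap A).injective (by rw [h0, map_zero])
  eq := by
    rw [emb_coeffMap_incA, emb_coeffMap_incA, ← map_mul, h.eq]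

theorem coeffEmb_mem_gaussSub {f : LaurentSeries ℚ}
    (hf : f ∈ gaussSub (ratSub A) (laurentBaseChange ℚ F₀)) :
    coeffEmb L f ∈ gaussSub A (laurentBaseChange L F₀) := by
  obtain ⟨Y₁, Y₂, h⟩ := hf
  exact (isPres_coeffEmb h).mem_gaussSub

/-- The residue of a rational element is the coefficientwise image of its residue over
`A ∩ ℚ`. -/
theorem gaussResFun_coeffEmb {f : LaurentSeries ℚ}
    (hf : f ∈ gaussSub (ratSub A) (laurentBaseChange ℚ F₀)) :
    gaussResFun A (laurentBaseChange L F₀) (coeffEmb L f) =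
      coeffMap (resMap A) (gaussResFun (ratSub A) (laurentBaseChange ℚ F₀) f) := by
  obtain ⟨Y₁, Y₂, h⟩ := hf
  rw [gaussResFun_eq (isPres_coeffEmb h), gaussResFun_eq h, red_coeffMap_incA,
    red_coeffMap_incA, map_div₀]

end Fermat.Agent.FF.RedRat
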