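/-
FF seat D1 (helper19): RATIONAL ORTHONORMAL FAMILIES, series form.

`F = ℚ̄ · F₀`, `A` a valuation ring of `ℚ̄` over `ℓ`, `h : GaussHyp A F₀ ℓ`.  A finite-dimensional
`G_ℚ`-stable subspace `W` of `F` is spanned by `G_ℚ`-fixed elements of the Gauss ring whose residues
are linearly independent over the residue field `k` of `A` (`exists_ratOrtho_gauss`).

Route: fixed basis (RAT), descent to `F₀`, orthonormalisation over the valuation ring `A ∩ ℚ` of
`ℚ` (`GaussInt.exists_orthonormal_series` with `K = ℚ`), transfer to `(ℚ̄, A)`; independent series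
over the residue field of `A ∩ ℚ` stay independent over `k`.
-/
import Mathlib
import Fermat.Agent.Lib.FF.RedRat.Trans
import Fermat.Agent.S17.Rat.Modular

set_option autoImplicit false
set_option linter.style.haveILetI false

noncomputable section

namespace Fermat.Agent.FF.RedRat

open ModularCurve HahnSeries Fermat.Agent.GaussInt Fermat.Agent.S17.RatDesc

local notation "Qb" => AlgebraicClosure ℚ

/-- independence over a subfield, sum form with multiplication by constants -/
theorem eq_zero_of_sum_mul_coeffMap {K₀ L : Type*} [Field K₀] [Field L] (j : K₀ →+* L)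
    {ι : Type*} [Fintype ι] (x : ι → LaurentSeries K₀)
    (hx : ∀ d : ι → K₀, ∑ i, algebraMap K₀ (LaurentSeries K₀) (d i) * x i = 0 → ∀ i, d i = 0)
    (c : ι → L) (hc : ∑ i, algebraMap L (LaurentSeries L) (c i) * coeffMap j (x i) = 0) :
    ∀ i, c i = 0 := by
  letI : Algebra K₀ L := j.toAlgebra
  have hli : LinearIndependent K₀ x := by
    rw [Fintype.linearIndependent_iff]
    intro d hd
    apply hx d
    rw [← hd]
    exact Finset.sum_congr rfl fun i _ => algebraMap_mul_eq_smul _ _
  apply eq_zero_of_sum_smul_coeffMap hli c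
  rw [← hc]
  exact Finset.sum_congr rfl fun i _ => (algebraMap_mul_eq_smul _ _).symm

section Span

variable {L : Type*} [Field L] [Algebra ℚ L]

theorem coeffEmb_algebraMap_mul (a : ℚ) (x : LaurentSeries ℚ) :
    coeffEmb L (algebraMap ℚ (LaurentSeries ℚ) a * x) =
      algebraMap L (LaurentSeries L) (algebraMap ℚ L a) * coeffEmb L x := by
  rw [map_mul]
  congr 1
  rw [algebraMap_laurentSeries_eq_single, algebraMap_laurentSeries_eq_single]
  exact coeffMap_single _ _ _

/-- span transfer: the image of the `ℚ`-span lies in the `L`-span of the image -/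
theorem coeffEmb_mem_span {T : Set (LaurentSeries ℚ)} {x : LaurentSeries ℚ}
    (hx : x ∈ Submodule.span ℚ T) :
    coeffEmb L x ∈ Submodule.span L (⇑(coeffEmb L) '' T) := by
  induction hx using Submodule.span_induction with
  | mem x hx => exact Submodule.subset_span ⟨x, hx, rfl⟩
  | zero =>
    rw [map_zero]
    exact Submodule.zero_mem _
  | add x y _ _ hx hy =>
    rw [map_add]
    exact Submodule.add_mem _ hx hy
  | smul a x _ hx =>
    rw [← algebraMap_mul_eq_smul, coeffEmb_algebraMap_mul, algebraMap_mul_eq_smul]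
    exact Submodule.smul_mem _ _ hx

theorem span_coeffEmb_le {T T' : Set (LaurentSeries ℚ)}
    (h : T ⊆ Submodule.span ℚ T') :
    Submodule.span L (⇑(coeffEmb L) '' T) ≤ Submodule.span L (⇑(coeffEmb L) '' T') := by
  rw [Submodule.span_le]
  rintro _ ⟨x, hx, rfl⟩
  exact coeffEmb_mem_span (h hx)

theorem span_coeffEmb_eq {T T' : Set (LaurentSeries ℚ)}
    (h : Submodule.span ℚ T = Submodule.span ℚ T') :
    Submodule.span L (⇑(coeffEmb L) '' T) = Submodule.span L (⇑(coeffEmb L) '' T') :=
  le_antisymm (span_coeffEmb_le (h ▸ Submodule.subset_span))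
    (span_coeffEmb_le (h ▸ Submodule.subset_span))

end Span

variable {F₀ : IntermediateField ℚ (LaurentSeries ℚ)} {ℓ : ℕ} {A : ValuationSubring Qb}

/-- **RATIONAL ORTHONORMAL BASIS, Gauss form.** -/
theorem exists_ratOrtho_gauss (h : GaussHyp A F₀ ℓ)
    (W : Submodule Qb (laurentBaseChange Qb F₀)) [FiniteDimensional Qb W]
    (hW : ∀ σ : Qb ≃ₐ[ℚ] Qb, ∀ f ∈ W, arithmeticGalois F₀ σ • f ∈ W) :
    ∃ (n : ℕ) (b : Fin n → laurentBaseChange Qb F₀),
      Submodule.span Qb (Set.range b) = W ∧
      (∀ i (σ : Qb ≃ₐ[ℚ] Qb), arithmeticGalois F₀ σ • b i = b i) ∧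
      (∀ i, ((b i : laurentBaseChange Qb F₀) : LaurentSeries Qb) ∈
        gaussSub A (laurentBaseChange Qb F₀)) ∧
      (∀ c : Fin n → IsLocalRing.ResidueField A,
        ∑ i, algebraMap (IsLocalRing.ResidueField A)
            (LaurentSeries (IsLocalRing.ResidueField A)) (c i) *
          gaussResFun A (laurentBaseChange Qb F₀)
            ((b i : laurentBaseChange Qb F₀) : LaurentSeries Qb) = 0 → ∀ i, c i = 0) := by
  classical
  obtain ⟨n₀, b₀, -, hspan₀, hfix₀⟩ := exists_fixed_family_general F₀ W hW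
  have hrat : ∀ i, ∃ z : LaurentSeries ℚ, coeffEmb Qb z = (b₀ i : LaurentSeries Qb) := fun i =>
    exists_coeffEmb_eq fun n => coeff_rat_of_fixed F₀ (b₀ i) (hfix₀ i) n
  choose z₀ hz₀ using hrat
  have hz₀F : ∀ i, z₀ i ∈ F₀ := fun i =>
    mem_of_coeffEmb_mem h.isIntGen (by rw [hz₀ i]; exact (b₀ i).2)
  obtain ⟨s, w, -, hwO, hwspan, hwind⟩ := exists_orthonormal_series (gaussHyp_ratSub h)
    (Submodule.span ℚ (Set.range z₀)) (Submodule.fg_span (Set.finite_range _)) (by
      intro x hx
      rw [mem_laurentBaseChange_rat]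
      induction hx using Submodule.span_induction with
      | mem x hx =>
        obtain ⟨i, rfl⟩ := hx
        exact hz₀F i
      | zero => exact F₀.zero_mem
      | add x y _ _ hx hy => exact add_mem hx hy
      | smul a x _ hx =>
        rw [← algebraMap_mul_eq_smul]
        exact mul_mem (F₀.algebraMap_mem _) hx)
  have hwF : ∀ n ∈ s, coeffEmb Qb (w n) ∈ laurentBaseChange Qb F₀ := fun n hn =>
    coeffEmb_mem_of_mem_rat (mem_of_mem_gaussSub (hwO n hn))
  set e := s.equivFin with he
  refine ⟨s.card, fun j => ⟨coeffEmb Qb (w (e.symm j)), hwF _ (e.symm j).2⟩, ?_, ?_, ?_, ?_⟩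
  · -- span
    apply Submodule.map_injective_of_injective (valLin_injective (laurentBaseChange Qb F₀))
    rw [← hspan₀, Submodule.map_span, Submodule.map_span]
    have h1 : (⇑(valLin (laurentBaseChange Qb F₀)) '' Set.range fun j : Fin s.card =>
        (⟨coeffEmb Qb (w (e.symm j)), hwF _ (e.symm j).2⟩ : laurentBaseChange Qb F₀)) =
        ⇑(coeffEmb Qb) '' (w '' (s : Set ℤ)) := by
      ext x
      constructor
      · rintro ⟨_, ⟨j, rfl⟩, rfl⟩
        exact ⟨w (e.symm j), ⟨e.symm j, (e.symm j).2, rfl⟩, rfl⟩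
      · rintro ⟨_, ⟨m, hm, rfl⟩, rfl⟩
        refine ⟨_, ⟨e ⟨m, hm⟩, rfl⟩, ?_⟩
        simp
    have h2 : (⇑(valLin (laurentBaseChange Qb F₀)) '' Set.range b₀) =
        ⇑(coeffEmb Qb) '' Set.range z₀ := by
      ext x
      constructor
      · rintro ⟨_, ⟨i, rfl⟩, rfl⟩
        exact ⟨z₀ i, ⟨i, rfl⟩, hz₀ i⟩
      · rintro ⟨_, ⟨i, rfl⟩, rfl⟩
        exact ⟨b₀ i, ⟨i, rfl⟩, (hz₀ i).symm⟩
    rw [h1, h2]
    exact span_coeffEmb_eq hwspan
  · -- fixed
    intro j σ
    apply Subtype.ext
    rw [coe_arithmeticGalois_smul]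
    exact coeffMap_coeffEmb σ _
  · -- integral
    intro j
    exact coeffEmb_mem_gaussSub (hwO _ (e.symm j).2)
  · -- independence of the residues
    intro c hc
    refine eq_zero_of_sum_mul_coeffMap (resMap A)
      (fun j : Fin s.card => gaussResFun (ratSub A) (laurentBaseChange ℚ F₀) (w (e.symm j)))
      ?_ c ?_
    · intro d hd j
      set d' : ℤ → IsLocalRing.ResidueField (ratSub A) :=
        fun m => if hm : m ∈ s then d (e ⟨m, hm⟩) else 0 with hd'
      have hsum : ∑ m ∈ s, algebraMap (IsLocalRing.ResidueField (ratSub A))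
          (LaurentSeries (IsLocalRing.ResidueField (ratSub A))) (d' m) *
            gaussResFun (ratSub A) (laurentBaseChange ℚ F₀) (w m) = 0 := by
        rw [← hd, ← Finset.sum_coe_sort s, ← Equiv.sum_comp e.symm]
        refine Finset.sum_congr rfl fun i _ => ?_
        have h1 : d' (e.symm i : ℤ) = d i := by
          simp only [hd']
          rw [dif_pos (e.symm i).2]
          simp
        rw [h1]
      have := hwind d' hsum (e.symm j) (e.symm j).2
      simp only [hd'] at this
      rw [dif_pos (e.symm j).2] at this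
      simpa using this
    · rw [← hc]
      refine Finset.sum_congr rfl fun j _ => ?_
      rw [gaussResFun_coeffEmb (hwO _ (e.symm j).2)]

end Fermat.Agent.FF.RedRat
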